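import Fermat.Agent.Mazur.RedInj.ConnKer
import Fermat.Agent.Mazur.Defs
import Fermat.Agent.Mazur.Immersion.Defs
import Fermat.Agent.RED.TorsionModular
import Fermat.Agent.FFG.OrderL.Dichotomy
import Fermat.Agent.Galois.PadicPlace

/-!
# Reduction modulo `q` is injective on rational torsion, and the reduction data of `X₀(N)`

The prime-to-`q` torsion injects; a rational point of order `q` that reduces to zero would be a
connected group of order `q` with trivial action, impossible for `q` odd.
-/

set_option autoImplicit false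
set_option synthInstance.maxHeartbeats 400000

noncomputable section

open AlgebraicCurve ModularCurve
open Fermat.Agent.Galois (Qbar GalQ)

namespace Fermat.Agent.Mazur.RedInj

variable {N q : ℕ} [NeZero N] {A : ValuationSubring (AlgebraicClosure ℚ)}

/-- A rational point of order `q` does not reduce to zero. -/
theorem eq_zero_of_prime_torsion [Fact q.Prime] (hq2 : q ≠ 2) (hqN : ¬ q ∣ N)
    (hA : A.LiesOverPrime q) (w : JZero N) (hfix : ∀ σ : GalQ, σ • w = w) (hqw : q • w = 0)
    (hred : reductionModL A N w = 0) : w = 0 := by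
  have hq : q.Prime := Fact.out
  by_contra hw
  have hord : addOrderOf w = q := addOrderOf_eq_prime hqw hw
  set M := AddSubgroup.zmultiples w with hM
  have hcard : Nat.card M = q := by rw [hM, Nat.card_zmultiples, hord]
  have : Finite M := Nat.finite_of_card_ne_zero (by rw [hcard]; exact hq.ne_zero)
  have hfixM : ∀ σ : GalQ, ∀ x ∈ M, σ • x = x := fun σ x hx => by
    obtain ⟨n, rfl⟩ := AddSubgroup.mem_zmultiples_iff.1 hx
    exact (map_zsmul (DistribSMul.toAddMonoidHom (JZero N) σ) n w).trans
      (congrArg (n • ·) (hfix σ))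
  have hstab : ∀ σ : GalQ, ∀ x ∈ M, σ • x ∈ M := fun σ x hx => (hfixM σ x hx).symm ▸ hx
  obtain ⟨B, hB, hconn⟩ := exists_model_connPart hq hqN hA M hstab
  let w' : M := ⟨w, AddSubgroup.mem_zmultiples w⟩
  have hw' : w' ∈ FFG.OrderL.connPart hA hB :=
    (FFG.OrderL.mem_connPart_iff hA hB).2 ((hconn w').2 hred)
  rcases FFG.OrderL.orderL_dichotomy hA hB hcard with ⟨hbot, -⟩ | ⟨-, hcyc⟩
  · rw [hbot, AddSubgroup.mem_bot] at hw'
    exact hw (congrArg Subtype.val hw')
  · obtain ⟨σ, hσ, hne⟩ := FFG.OrderL.exists_inertia_cycloExp_ne_one hA hq2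
    have h1 : (ExtCitation.cycloExp q σ) • w = w := by
      have := congrArg Subtype.val (hcyc σ hσ w')
      rw [AddSubmonoidClass.coe_nsmul] at this
      exact this.symm.trans (hfix σ)
    apply hne
    have h2 : ((ExtCitation.cycloExp q σ : ℤ) - 1) • w = 0 := by
      rw [sub_smul, one_smul, natCast_zsmul, h1, sub_self]
    have h3 := addOrderOf_dvd_iff_zsmul_eq_zero.mpr h2
    rw [hord, ← ZMod.intCast_zmod_eq_zero_iff_dvd, Int.cast_sub, Int.cast_natCast,
      Int.cast_one, sub_eq_zero] at h3
    exact h3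

/-- A rational point of `q`-power order does not reduce to zero. -/
theorem eq_zero_of_prime_pow_torsion [Fact q.Prime] (hq2 : q ≠ 2) (hqN : ¬ q ∣ N)
    (hA : A.LiesOverPrime q) (k : ℕ) (w : JZero N) (hfix : ∀ σ : GalQ, σ • w = w)
    (hqw : q ^ k • w = 0) (hred : reductionModL A N w = 0) : w = 0 := by
  induction k generalizing w with
  | zero => simpa using hqw
  | succ k ih =>
    refine eq_zero_of_prime_torsion hq2 hqN hA w hfix ?_ hred
    refine ih (q • w) (fun σ => ?_) ?_ (by rw [map_nsmul, hred, smul_zero])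
    · exact (map_nsmul (DistribSMul.toAddMonoidHom (JZero N) σ) q w).trans
        (congrArg (q • ·) (hfix σ))
    · rw [← mul_nsmul, ← pow_succ']
      exact hqw

/-- **Reduction modulo an odd prime of good reduction is injective on rational torsion.** -/
theorem fixedTorsionRedInjective (hq : q.Prime) (hq2 : q ≠ 2) (hqN : ¬ q ∣ N) :
    FixedTorsionRedInjective N q := by
  intro A hA z hfix ⟨m, hm0, hmz⟩ hred
  have := Fact.mk hq
  obtain ⟨k, m', hqm', rfl⟩ := Nat.exists_eq_pow_mul_and_not_dvd hm0.ne' q hq.ne_one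
  have h : ReductionInputsModL A N :=
    RED.reductionInputsModL hq hqN hA (RED.x0Lift hq hqN hA)
  refine eq_zero_of_prime_pow_torsion hq2 hqN hA k z hfix ?_ hred
  refine RED.eq_zero_of_reductionModL_eq_zero hq hqN hA (RED.x0Lift hq hqN hA) h hqm' _ ?_
    (by rw [map_nsmul, hred, smul_zero])
  rw [← mul_nsmul]
  exact hmz

/-- The reduction data needed by the formal immersion. -/
theorem hasReductionData [Fact q.Prime] (hqN : ¬ q ∣ N) :
    Immersion.HasReductionData N (padicPlace q) := by
  have hq : q.Prime := Fact.out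
  have hA : (padicPlace q).LiesOverPrime q := Galois.padicPlace_liesOverPrime q
  obtain ⟨n, hT⟩ := RED.exists_twoCharts_x0 hq hqN hA (RED.x0Lift hq hqN hA)
  exact ⟨_, RED.isCoefficientwise_x0Red hq hqN hA, _, n, RED.jPlace_eq_jElem (N := N) ▸ hT⟩

end Fermat.Agent.Mazur.RedInj
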