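import Fermat.Agent.FlatJ.Jacobian
import Fermat.Agent.FlatJ.Torsion
import Fermat.Agent.FFG.OrderL.Connected
import Fermat.Agent.RED.X0LiftAll

/-!
# The connected part of the model of torsion of `J₀(N)` is the kernel of reduction

For a finite Galois stable group `M` of classes on `X₀(p)`, `p` prime to `ℓ`, the model of `M` over
`ℤ_(ℓ)` has as connected part at `A` the classes that reduce to zero.
-/

set_option autoImplicit false
set_option synthInstance.maxHeartbeats 400000

noncomputable section

open AlgebraicCurve ModularCurve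
open Fermat.Agent.Galois (Qbar GalQ)
open scoped TensorProduct

namespace Fermat.Agent.Mazur.RedInj

section Bridge

variable {ℓ : ℕ} {M : Type} [AddCommGroup M] [Finite M]

omit [AddCommGroup M] [Finite M] in
theorem pairEval_eq_tmap {R : Type} [CommRing R] [Algebra R Qbar]
    (B : Subalgebra R (M → Qbar)) (t : B ⊗[R] B) :
    FlatJ.pairEval B.val B.val t = FFG.tmap B.val B.val t := by
  induction t using TensorProduct.induction_on with
  | zero => simp
  | tmul u v => funext ⟨a, b⟩; simp [FlatJ.pairEval_tmul]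
  | add a b ha hb => rw [map_add, map_add, ha, hb]

/-- A lattice of functions with equivariant members is a model. -/
theorem isModelAt_of_funLattice (T : FlatJ.FunLattice (GaloisRep.ratLocalizedAt ℓ) Qbar M)
    {act : GalQ → M → M} (h : ∀ f ∈ T.H, ∀ σ x, f (act σ x) = σ (f x)) :
    FFG.OrderL.IsModelAt ℓ act T.H where
  finite := by
    have : Finite T.ι := T.indep.finite
    exact Module.Finite.of_basis T.basis
  equivariant := h
  separates x y hxy := by
    classical
    by_contra hne
    have key : ∀ f : M → Qbar, f x = f y := by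
      intro f
      have hf : f ∈ Submodule.span Qbar (Set.range fun i => ((T.basis i : T.H) : M → Qbar)) := by
        rw [T.spans]; trivial
      induction hf using Submodule.span_induction with
      | mem g hg =>
        obtain ⟨i, rfl⟩ := hg
        exact hxy _ (T.basis i).2
      | zero => rfl
      | add f g _ _ hf hg => simp [hf, hg]
      | smul c f _ hf => simp [hf]
    simpa [Pi.single_apply, Ne.symm hne] using key (Pi.single x 1)
  comul_mem f hf := by
    obtain ⟨t, ht⟩ := T.comul_mem f hf
    rw [← FFG.range_tmap_val]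
    refine ⟨t, funext fun z => ?_⟩
    show FFG.tmap T.H.val T.H.val t z = f (z.1 + z.2)
    rw [← pairEval_eq_tmap, ← ht z.1 z.2]

end Bridge

section X0

variable {p ℓ : ℕ} [NeZero p] {A : ValuationSubring (AlgebraicClosure ℚ)}

/-- The place map of a reduction set up is the reduction of places. -/
theorem redSetup_r_eq (hℓ : ℓ.Prime) (hp : ¬ ℓ ∣ p) (hA : A.LiesOverPrime ℓ)
    (D : FlatJ.RedSetup A (IsLocalRing.residue A) (modularFunctionFieldBar p)
      (modularFunctionFieldFullC (IsLocalRing.ResidueField A) p))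
    (h : ReductionInputsModL A p) : D.r = placeReductionModL h := by
  have hlift := RED.x0Lift hℓ hp hA
  rw [RED.placeReductionModL_eq hℓ hp hA hlift h]
  refine RED.eq_x0RedPlace hℓ hp hA hlift ⟨fun P => ?_, fun y hy hyk hne E hE Q => ?_⟩
  · have := Galois.place_residueField_isAlgClosed A
    have : FF.IsFunctionField (AlgebraicClosure ℚ) (modularFunctionFieldBar p) :=
      MF.Coeff.isFunctionField_laurentBaseChange (AlgebraicClosure ℚ) p
    have : FF.IsFunctionField (IsLocalRing.ResidueField A)
        (modularFunctionFieldFullC (IsLocalRing.ResidueField A) p) :=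
      RED.isFunctionField_special p (RED.natCast_residue_ne_zero hℓ hp hA)
    rw [(D.r P).deg_eq_one_of_isAlgClosed_of_finite, P.deg_eq_one_of_isAlgClosed_of_finite]
  · exact D.compat _ _ ⟨y, rfl, rfl⟩ (fun h0 => hne (congrArg Subtype.val h0)) E hE Q

/-- **The connected part is the kernel of reduction.** -/
theorem exists_model_connPart (hℓ : ℓ.Prime) (hp : ¬ ℓ ∣ p) (hA : A.LiesOverPrime ℓ)
    (M : AddSubgroup (JZero p)) [Finite M]
    (hM : ∀ σ : GalQ, ∀ x ∈ M, σ • x ∈ M) :
    ∃ B, FFG.OrderL.IsModelAt ℓ (fun σ (x : M) => (⟨σ • (x : JZero p), hM σ x x.2⟩ : M)) B ∧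
      ∀ x : M, FFG.OrderL.InConnected A B x ↔ reductionModL A p (x : JZero p) = 0 := by
  have hlift := RED.x0Lift hℓ hp hA
  have h : ReductionInputsModL A p := RED.reductionInputsModL hℓ hp hA hlift
  obtain ⟨hac, hinf⟩ := FlatJ.residueField_instances hℓ hA
  have := FlatJ.nonempty_place p
  obtain ⟨D, P, hP⟩ := FlatJ.exists_redSetup hℓ hp hA hlift
  obtain ⟨T, hT, hker⟩ := FlatJ.exists_funLattice_torsion D P hP hA hℓ M hM
  refine ⟨T.H, isModelAt_of_funLattice T fun f hf σ x => hT f hf σ x, fun x => ?_⟩
  rw [FFG.OrderL.InConnected, hker x, redSetup_r_eq hℓ hp hA D h]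
  obtain ⟨D₀, hD₀⟩ : ∃ D₀ : Divisor.degZero (K := AlgebraicClosure ℚ)
      (F := modularFunctionFieldBar p), Pic0.mk D₀ = (x : JZero p) ∧
        (D₀ : Divisor (AlgebraicClosure ℚ) (modularFunctionFieldBar p)) = FlatJ.repDiv M x :=
    ⟨_, (Pic0.mk_surjective (x : JZero p)).choose_spec, rfl⟩
  rw [← hD₀.1, ← hD₀.2, reductionModL_mk h]
  unfold FlatJ.Lin
  rw [sub_zero]
  refine ⟨fun hl => (QuotientAddGroup.eq_zero_iff _).mpr (AddSubgroup.mem_addSubgroupOf.mpr hl),
    fun hl => AddSubgroup.mem_addSubgroupOf.mp ((QuotientAddGroup.eq_zero_iff _).mp hl)⟩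

end X0

end Fermat.Agent.Mazur.RedInj
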